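import Fermat.Agent.MertensOmega.Kernel

/-!
# The inequality for a series with nonnegative coefficients

`F z = ∑ b n n ^ (-(z + 1))`, `b n ≥ 0`, on `re z > 1/2`. The limits `L w` of `δ F (1/2 + δ + iw)`
satisfy `‖L w‖ ≤ re (L 0)`, and `∑ ‖L γ‖ ≤ re (L 0)` over frequencies whose short combinations
have limit `0`.
-/

set_option autoImplicit false

noncomputable section

open Complex Filter Topology
open FA.MertensOmega
open scoped ComplexConjugate

namespace FA.LiouvilleOmega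

/-- `F` is the series of the nonnegative coefficients `b` on `re z > 1/2`. -/
def IsNonnegSeries (b : ℕ → ℝ) (F : ℂ → ℂ) : Prop :=
  (∀ n, 0 ≤ b n) ∧ ∀ z : ℂ, 1 / 2 < z.re →
    HasSum (fun n : ℕ => (b n : ℂ) * exp (-(z + 1) * Real.log n)) (F z)

variable {b : ℕ → ℝ} {F : ℂ → ℂ}

theorem IsNonnegSeries.map_conj (h : IsNonnegSeries b F) {z : ℂ} (hz : 1 / 2 < z.re) :
    F (conj z) = conj (F z) := by
  have h1 := Complex.hasSum_conj'.2 (h.2 z hz)
  refine (h.2 (conj z) (by simpa using hz)).unique (h1.congr_fun fun n => ?_)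
  rw [map_mul, conj_ofReal, ← Complex.exp_conj, map_mul, map_neg, map_add, map_one, conj_ofReal]

theorem IsNonnegSeries.norm_le (h : IsNonnegSeries b F) {z : ℂ} (hz : 1 / 2 < z.re) :
    ‖F z‖ ≤ (F (z.re : ℂ)).re := by
  have h2 := Complex.hasSum_re (h.2 (z.re : ℂ) (by simpa using hz))
  rw [← (h.2 z hz).tsum_eq]
  refine tsum_of_norm_bounded h2 fun n => le_of_eq ?_
  rw [norm_mul, norm_real, Real.norm_eq_abs, abs_of_nonneg (h.1 n), Complex.norm_exp,
    re_ofReal_mul, show -((z.re : ℂ) + 1) * (Real.log n : ℂ) =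
      ((-(z.re + 1) * Real.log n : ℝ) : ℂ) by push_cast; ring, ← ofReal_exp,
    ofReal_re, mul_re, ofReal_re, ofReal_im]
  simp [-natCast_log]

theorem IsNonnegSeries.eventually_mul_norm_le (h : IsNonnegSeries b F) (w : ℝ) :
    ∀ᶠ δ : ℝ in 𝓝[>] 0,
      ‖(δ : ℂ) * F (onLine w + δ)‖ ≤ ((δ : ℂ) * F (onLine 0 + δ)).re := by
  filter_upwards [eventually_mem_nhdsWithin] with δ hδ
  have hδ0 : (0 : ℝ) < δ := hδ
  have h1 := h.norm_le (z := onLine w + δ) (by simp [onLine_re]; linarith)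
  rw [show (((onLine w + δ).re : ℝ) : ℂ) = onLine 0 + δ by simp [onLine_re, onLine_zero]] at h1
  rw [norm_mul, norm_real, Real.norm_eq_abs, abs_of_pos hδ0, re_ofReal_mul]
  exact mul_le_mul_of_nonneg_left h1 hδ0.le

/-- **One frequency.** -/
theorem IsNonnegSeries.norm_limit_le (h : IsNonnegSeries b F) {L₀ L : ℂ} {w : ℝ}
    (h0 : Tendsto (fun δ : ℝ => (δ : ℂ) * F (onLine 0 + δ)) (𝓝[>] 0) (𝓝 L₀))
    (hw : Tendsto (fun δ : ℝ => (δ : ℂ) * F (onLine w + δ)) (𝓝[>] 0) (𝓝 L)) : ‖L‖ ≤ L₀.re :=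
  le_of_tendsto_of_tendsto hw.norm ((Complex.continuous_re.tendsto _).comp h0)
    (h.eventually_mul_norm_le w)

/-- **No faster growth than at `1/2`**: times anything tending to `0` the limit is `0`. -/
theorem IsNonnegSeries.tendsto_mul_zero (h : IsNonnegSeries b F) {L₀ : ℂ} {w : ℝ} {Q : ℝ → ℂ}
    (h0 : Tendsto (fun δ : ℝ => (δ : ℂ) * F (onLine 0 + δ)) (𝓝[>] 0) (𝓝 L₀))
    (hQ : Tendsto Q (𝓝[>] 0) (𝓝 0)) :
    Tendsto (fun δ : ℝ => (δ : ℂ) * F (onLine w + δ) * Q δ) (𝓝[>] 0) (𝓝 0) := by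
  refine squeeze_zero_norm' (a := fun δ : ℝ => ((δ : ℂ) * F (onLine 0 + δ)).re * ‖Q δ‖) ?_
    (by simpa using ((Complex.continuous_re.tendsto _).comp h0).mul (tendsto_norm_zero.comp hQ))
  filter_upwards [h.eventually_mul_norm_le w] with δ hδ
  rw [norm_mul]
  exact mul_le_mul_of_nonneg_right hδ (norm_nonneg _)

variable {ι : Type*} [Fintype ι] [DecidableEq ι]

/-- The weighted series is nonnegative. -/
theorem IsNonnegSeries.re_weighted_nonneg (h : IsNonnegSeries b F) (γ φ : ι → ℝ) {δ : ℝ}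
    (hδ : 0 < δ) : 0 ≤ (∑ ε : ι → Fin 3, weight φ ε *
      ((δ : ℂ) * F (onLine (-freq γ ε) + δ))).re := by
  have hs := hasSum_sum (s := (Finset.univ : Finset (ι → Fin 3))) fun ε _ =>
    ((h.2 (onLine (-freq γ ε) + δ) (by simp [onLine_re]; linarith)).mul_left (δ : ℂ)).mul_left
      (weight φ ε)
  refine (Complex.hasSum_re hs).nonneg fun n => ?_
  have e1 : ∀ ε : ι → Fin 3, weight φ ε * ((δ : ℂ) * ((b n : ℂ) *
      exp (-(onLine (-freq γ ε) + δ + 1) * Real.log n))) =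
      ((δ * b n * Real.exp (-(3 / 2 + δ) * Real.log n) : ℝ) : ℂ) *
        (weight φ ε * exp (((freq γ ε * Real.log n : ℝ) : ℂ) * I)) := fun ε => by
    rw [show -(onLine (-freq γ ε) + δ + 1) * (Real.log n : ℂ) =
      ((-(3 / 2 + δ) * Real.log n : ℝ) : ℂ) + ((freq γ ε * Real.log n : ℝ) : ℂ) * I by
        rw [onLine]; push_cast; ring, Complex.exp_add, ← ofReal_exp]
    push_cast
    ring
  rw [Finset.sum_congr rfl fun ε _ => e1 ε, ← Finset.mul_sum, sum_weight, ← ofReal_mul, ofReal_re]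
  exact mul_nonneg (mul_nonneg (mul_nonneg hδ.le (h.1 n)) (Real.exp_pos _).le)
    (Finset.prod_nonneg fun i _ => by linarith [Real.neg_one_le_cos (γ i * Real.log n + φ i)])

/-- **Finitely many frequencies.** -/
theorem IsNonnegSeries.sum_limit_le (h : IsNonnegSeries b F) {L₀ : ℂ}
    (h0 : Tendsto (fun δ : ℝ => (δ : ℂ) * F (onLine 0 + δ)) (𝓝[>] 0) (𝓝 L₀))
    (γ : ι → ℝ) (R : ι → ℂ)
    (hR : ∀ i, Tendsto (fun δ : ℝ => (δ : ℂ) * F (onLine (γ i) + δ)) (𝓝[>] 0) (𝓝 (R i)))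
    (hfree : ∀ ε : ι → Fin 3, (∃ i j, i ≠ j ∧ ε i ≠ 0 ∧ ε j ≠ 0) →
      Tendsto (fun δ : ℝ => (δ : ℂ) * F (onLine (freq γ ε) + δ)) (𝓝[>] 0) (𝓝 0)) :
    ∑ i, ‖R i‖ ≤ L₀.re := by
  have hconj : ∀ {w : ℝ} {L : ℂ},
      Tendsto (fun δ : ℝ => (δ : ℂ) * F (onLine w + δ)) (𝓝[>] 0) (𝓝 L) →
      Tendsto (fun δ : ℝ => (δ : ℂ) * F (onLine (-w) + δ)) (𝓝[>] 0) (𝓝 (conj L)) :=
    fun {w} {L} hw => ((Complex.continuous_conj.tendsto L).comp hw).congr'
      (eventually_mem_nhdsWithin.mono fun δ (hδ : (0 : ℝ) < δ) => by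
        have hz : 1 / 2 < (onLine w + δ).re := by simp [onLine_re]; linarith
        rw [Function.comp_apply, map_mul, conj_ofReal, ← h.map_conj hz, map_add, conj_onLine,
          conj_ofReal])
  obtain ⟨φ, hφ⟩ : ∃ φ : ι → ℝ, φ = fun i => arg (-R i) := ⟨_, rfl⟩
  obtain ⟨val, hval⟩ : ∃ val : (ι → Fin 3) → ℂ, val = fun ε =>
      if ε = (fun _ => 0) then L₀ else ∑ i, ((if ε = oneSign i 1 then wt (φ i) 1 * conj (R i)
        else 0) + (if ε = oneSign i 2 then wt (φ i) 2 * R i else 0)) := ⟨_, rfl⟩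
  have hinj : ∀ i k : ι, ∀ j l : Fin 3, j ≠ 0 → oneSign i j = oneSign k l → i = k ∧ j = l := by
    intro i k j l hj h
    have h1 := congrFun h i
    simp only [oneSign, Pi.single_eq_same] at h1
    rcases eq_or_ne i k with rfl | hik
    · exact ⟨rfl, by simpa using h1⟩
    · rw [Pi.single_eq_of_ne hik] at h1
      exact absurd h1 hj
  have hne0 : ∀ i : ι, ∀ j : Fin 3, j ≠ 0 → oneSign i j ≠ fun _ => 0 := fun i j hj h =>
    hj (by simpa [oneSign] using congrFun h i)
  have hlimε : ∀ ε : ι → Fin 3, Tendsto (fun δ : ℝ => weight φ ε *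
      ((δ : ℂ) * F (onLine (-freq γ ε) + δ))) (𝓝[>] 0) (𝓝 (val ε)) := by
    intro ε
    by_cases hz : ε = fun _ => 0
    · subst hz
      simp only [hval, if_true]
      have hf : freq γ (fun _ => 0) = 0 := by simp [freq, sgn]
      simpa [hf, weight, wt] using h0
    by_cases hε : ∃ i j, i ≠ j ∧ ε i ≠ 0 ∧ ε j ≠ 0
    · have hv : val ε = 0 := by
        simp only [hval, if_neg hz]
        refine Finset.sum_eq_zero fun i _ => ?_
        obtain ⟨a, c, hac, ha, hc⟩ := hε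
        have hno : ∀ j, ε ≠ oneSign i j := fun j e => by
          subst e
          rcases eq_or_ne a i with rfl | hai
          · exact hc (by simp [oneSign, Pi.single_eq_of_ne hac.symm])
          · exact ha (by simp [oneSign, Pi.single_eq_of_ne hai])
        simp [hno]
      rw [hv]
      simpa using (hconj (hfree ε hε)).const_mul (weight φ ε)
    obtain ⟨i, hi⟩ : ∃ i, ε i ≠ 0 := Function.ne_iff.1 hz
    push Not at hε
    have he1 : ε = oneSign i (ε i) := funext fun k => by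
      rcases eq_or_ne k i with rfl | hk
      · simp [oneSign]
      · simp [oneSign, Pi.single_eq_of_ne hk, hε i k hk.symm hi]
    have hsum : ∀ j : Fin 3, j ≠ 0 → val (oneSign i j) =
        (if j = 1 then wt (φ i) 1 * conj (R i) else 0) + (if j = 2 then wt (φ i) 2 * R i else 0) :=
      fun j hj => by
        simp only [hval, if_neg (hne0 i j hj)]
        rw [Finset.sum_eq_single i (fun k _ hk => ?_) fun h => absurd (Finset.mem_univ i) h]
        · congr 1 <;> refine if_congr ⟨fun h => (hinj i i j _ hj h).2, fun h => by rw [h]⟩ rfl rfl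
        · rw [if_neg fun h => hk (hinj i k j _ hj h).1.symm,
            if_neg fun h => hk (hinj i k j _ hj h).1.symm, add_zero]
    rcases (show ε i = 1 ∨ ε i = 2 by
      generalize ε i = j at hi ⊢
      revert hi
      revert j
      decide) with h | h <;> rw [he1, h, weight_oneSign, freq_oneSign]
    · rw [hsum 1 (by decide), if_pos rfl, if_neg (by decide), add_zero]
      simpa [sgn] using (hconj (hR i)).const_mul (wt (φ i) 1)
    · rw [hsum 2 (by decide), if_pos rfl, if_neg (by decide), zero_add]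
      simpa [sgn] using (hR i).const_mul (wt (φ i) 2)
  have hpos := ge_of_tendsto ((Complex.continuous_re.tendsto _).comp
    (tendsto_finsetSum (Finset.univ : Finset (ι → Fin 3)) fun ε _ => hlimε ε))
    (eventually_mem_nhdsWithin.mono fun δ hδ => h.re_weighted_nonneg γ φ hδ)
  have hone : ∀ i, (wt (φ i) 1 * conj (R i) + wt (φ i) 2 * R i).re = -‖R i‖ := by
    intro i
    obtain ⟨a, ha⟩ : ∃ a : ℂ, a = -R i := ⟨_, rfl⟩
    have hE : exp (((φ i : ℝ) : ℂ) * I) * (‖a‖ : ℂ) = a := by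
      rw [mul_comm]
      simp only [hφ, ← ha]
      exact norm_mul_exp_arg_mul_I a
    have h2 : exp (-((φ i : ℝ) : ℂ) * I) * a = (‖a‖ : ℂ) := by
      conv_lhs => rw [← hE]
      rw [← mul_assoc, ← Complex.exp_add, neg_mul, neg_add_cancel, Complex.exp_zero, one_mul]
    have h1 : exp (((φ i : ℝ) : ℂ) * I) * conj a = (‖a‖ : ℂ) := by
      have := congrArg conj h2
      rwa [map_mul, ← Complex.exp_conj, map_mul, map_neg, conj_ofReal, conj_I, conj_ofReal,
        neg_mul_neg] at this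
    have hwt : wt (φ i) 1 * conj (R i) + wt (φ i) 2 * R i = -(‖a‖ : ℂ) := by
      have e1 : wt (φ i) 1 = exp (((φ i : ℝ) : ℂ) * I) / 2 := by simp [wt, sgn]
      have e2 : wt (φ i) 2 = exp (-((φ i : ℝ) : ℂ) * I) / 2 := by simp [wt, sgn]
      rw [e1, e2, show R i = -a by rw [ha, neg_neg], map_neg]
      linear_combination (-1 / 2 : ℂ) * h1 + (-1 / 2 : ℂ) * h2
    rw [hwt, ha, norm_neg]
    simp
  have hsplit : ∑ ε, val ε =
      L₀ + ∑ i, (wt (φ i) 1 * conj (R i) + wt (φ i) 2 * R i) := by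
    have h1 : ∀ i : ι, ∀ j : Fin 3, j ≠ 0 → ∀ c : ℂ,
        ∑ ε ∈ Finset.univ.erase (fun _ => (0 : Fin 3)), (if ε = oneSign i j then c else 0) = c :=
      fun i j hj c => by
        rw [Finset.sum_ite_eq' _ _ (fun _ => c),
          if_pos (Finset.mem_erase.2 ⟨hne0 i j hj, Finset.mem_univ _⟩)]
    rw [← Finset.add_sum_erase _ _ (Finset.mem_univ (fun _ => (0 : Fin 3) : ι → Fin 3))]
    congr 1
    · simp [hval]
    · rw [Finset.sum_congr rfl (g := fun ε => ∑ i, ((if ε = oneSign i 1 then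
          wt (φ i) 1 * conj (R i) else 0) + (if ε = oneSign i 2 then wt (φ i) 2 * R i else 0)))
          fun ε hε => by simp only [hval, if_neg (Finset.mem_erase.1 hε).1],
        Finset.sum_comm]
      refine Finset.sum_congr rfl fun i _ => ?_
      rw [Finset.sum_add_distrib, h1 i 1 (by decide), h1 i 2 (by decide)]
  rw [hsplit, add_re, re_sum, Finset.sum_congr rfl fun i _ => hone i,
    Finset.sum_neg_distrib] at hpos
  linarith

end FA.LiouvilleOmega

end
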