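import Fermat.Agent.LiouvilleOmega.Growth
import Fermat.Agent.OneSided.Liouville

/-!
# `∑ |ζ (2 ρ) / (ρ ζ' ρ)|` diverges

On the Riemann hypothesis with simple zeros, were the sum finite, `√ε` times the Gaussian mean of
`2 ^ s ζ (2 s) / ζ s` would tend to `√π λ 2` on `re s = 3` and to `0` on `re s = 1/4`, while the
residues between them contribute `0`.
-/

set_option autoImplicit false

noncomputable section

namespace FA.LiouvilleOmega

open Complex Filter Topology MeasureTheory Set FA.RiemannMangoldt FA.ExplicitFormula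
open FA.MertensOmega (gaussKer norm_gaussKer differentiable_gaussKer smoothRes norm_smoothRes_le)
open FA.VonKoch (invZeta invZeta_eq differentiableAt_invZeta)
open scoped Real

variable {ε y : ℝ}

theorem boxInt_ratio (hRH : RiemannHypothesis)
    (hs : ∀ ρ : ℂ, xiFn ρ = 0 → deriv riemannZeta ρ ≠ 0) {T : ℝ} (hT : 0 < T)
    (hord : ∀ ρ, xiFn ρ = 0 → |ρ.im| ≠ T) :
    boxInt (fun s => gaussKer ε y s * ratio s) (1 / 4) 3 T = 2 * π * I *
      (gaussKer ε y (1 / 2) * invZeta (1 / 2) / 2 +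
        ∑ ρ ∈ zerosUpTo T, riemannZeta (2 * ρ) * smoothRes ε y ρ) := by
  classical
  have hline : ∀ ρ : ℂ, xiFn ρ = 0 → ρ.re = 1 / 2 ∧ ρ ≠ 1 / 2 := fun ρ hρ =>
    ⟨FA.XiProduct.re_eq_half hRH hρ, fun h => im_ne_zero_of_zero hρ (by rw [h]; simp)⟩
  have hnot : (1 / 2 : ℂ) ∉ zerosUpTo T := fun h => (hline _ (mem_zerosUpTo.1 h).1).2 rfl
  obtain ⟨r, hr⟩ : ∃ r : ℂ → ℂ, r = fun s => if s = 1 / 2 then
      gaussKer ε y (1 / 2) * invZeta (1 / 2) / 2 else riemannZeta (2 * s) * smoothRes ε y s :=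
    ⟨_, rfl⟩
  rw [FA.MertensOmega.boxInt_simple_poles (r := r) (by norm_num) hT.le
    (insert (1 / 2 : ℂ) (zerosUpTo T)) (fun ρ hρ => ?_) (fun s h1 h2 h3 => ?_) (fun ρ hρ => ?_),
    Finset.sum_insert hnot]
  · congr 1
    rw [hr]
    simp only [if_true]
    congr 1
    exact Finset.sum_congr rfl fun ρ hρ => if_neg (hline ρ (mem_zerosUpTo.1 hρ).1).2
  · rcases Finset.mem_insert.1 hρ with rfl | hρ
    · norm_num [hT]
    · rw [mem_zerosUpTo] at hρ
      rw [(hline ρ hρ.1).1]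
      exact ⟨by norm_num, by norm_num, lt_of_le_of_ne hρ.2 (hord ρ hρ.1)⟩
  · simp only [Finset.mem_insert, not_or] at h3
    refine (differentiable_gaussKer s).mul (differentiableAt_ratio (fun h => h3.2 ?_) h3.1)
    exact mem_zerosUpTo.2 ⟨FA.MertensOmega.xiFn_of_zeta₁_zero (by linarith [h1.1]) h,
      abs_le.2 h2⟩
  · rcases Finset.mem_insert.1 hρ with rfl | hρ
    · have h0 : riemannZeta₁ (1 / 2 : ℂ) ≠ 0 := fun h =>
        (hline _ (FA.MertensOmega.xiFn_of_zeta₁_zero (by norm_num) h)).2 rfl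
      refine ⟨fun s => gaussKer ε y s * invZeta s * riemannZeta₁ (2 * s) / 2, ?_, ?_, ?_⟩
      · have hV : IsOpen {s : ℂ | riemannZeta₁ s ≠ 0} :=
          isOpen_ne_fun differentiable_riemannZeta₁.continuous continuous_const
        exact DifferentiableOn.analyticAt (fun s hs => ((((differentiable_gaussKer s).mul
          (differentiableAt_invZeta hs)).mul ((differentiable_riemannZeta₁ (2 * s)).comp s
            (differentiableAt_id.const_mul 2))).div_const 2).differentiableWithinAt)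
          (hV.mem_nhds h0)
      · simp [hr]
      · filter_upwards [self_mem_nhdsWithin] with s (hne : s ≠ 1 / 2)
        have h2 : 2 * s ≠ 1 := fun h => hne (by linear_combination (1 / 2 : ℂ) * h)
        have h3 : s - 1 / 2 ≠ 0 := sub_ne_zero.2 hne
        have h4 : 2 * s - 1 ≠ 0 := sub_ne_zero.2 h2
        rw [ratio, riemannZeta_eq_inv_sub_mul h2, show 2 * s - 1 = 2 * (s - 1 / 2) by ring, mul_inv,
          div_div]
        field_simp
    · rw [mem_zerosUpTo] at hρ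
      obtain ⟨a, b⟩ := xiFn_zero_strip hρ.1
      have hρ1 : ρ ≠ 1 := fun h => by rw [h] at b; simp at b
      have hz := (xiFn_eq_zero_iff a hρ1).1 hρ.1
      have h1 : riemannZeta₁ ρ = 0 := FA.PsiOscillation.riemannZeta₁_eq_zero hz hρ1
      obtain ⟨D, hD⟩ : ∃ D, D = dslope riemannZeta₁ ρ := ⟨_, rfl⟩
      have hDρ : D ρ = (ρ - 1) * deriv riemannZeta ρ := by
        rw [hD, dslope_same, FA.MertensOmega.deriv_zeta₁_zero hρ1 hz]
      have hD0 : D ρ ≠ 0 := hDρ ▸ mul_ne_zero (sub_ne_zero.2 hρ1) (hs ρ hρ.1)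
      have hDd : Differentiable ℂ D := differentiableOn_univ.1 (hD ▸
        (differentiableOn_dslope univ_mem).2 differentiable_riemannZeta₁.differentiableOn)
      have h2a : AnalyticAt ℂ (fun s => riemannZeta (2 * s)) ρ :=
        DifferentiableOn.analyticAt (fun s (hs : s ≠ 1 / 2) =>
          ((differentiableAt_riemannZeta fun h => hs (by linear_combination (1 / 2 : ℂ) * h)).comp s
            (differentiableAt_id.const_mul 2)).differentiableWithinAt)
          (isOpen_ne.mem_nhds (hline ρ hρ.1).2)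
      refine ⟨fun s => gaussKer ε y s * ((s - 1) / D s) * riemannZeta (2 * s), ?_, ?_, ?_⟩
      · exact ((differentiable_gaussKer.analyticAt ρ).mul
          ((analyticAt_id.sub analyticAt_const).div (hDd.analyticAt ρ) hD0)).mul h2a
      · simp only [hr, if_neg (hline ρ hρ.1).2, smoothRes, hDρ]
        have := sub_ne_zero.2 hρ1
        field_simp
      · filter_upwards [self_mem_nhdsWithin] with s (hne : s ≠ ρ)
        rw [ratio, invZeta, hD, dslope_of_ne _ hne, slope, vsub_eq_sub, smul_eq_mul, h1, sub_zero]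
        field_simp

/-- The residue sum. -/
def resSum (ε y : ℝ) : ℂ :=
  ∑' ρ : {ρ : ℂ // xiFn ρ = 0}, riemannZeta (2 * (ρ : ℂ)) * smoothRes ε y ρ

theorem norm_term_le (hε : 0 < ε) (hε1 : ε ≤ 1) (ρ : {ρ : ℂ // xiFn ρ = 0}) :
    ‖((√ε : ℝ) : ℂ) * (riemannZeta (2 * (ρ : ℂ)) * smoothRes ε y ρ)‖ ≤ 2 * Real.exp (1 + |y|) *
      ‖riemannZeta (2 * (ρ : ℂ)) * ((ρ : ℂ) * deriv riemannZeta ρ)⁻¹‖ := by
  rw [norm_mul, norm_real, Real.norm_of_nonneg (Real.sqrt_nonneg _), norm_mul, norm_mul,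
    mul_left_comm, mul_left_comm (2 * Real.exp (1 + |y|))]
  exact mul_le_mul_of_nonneg_left (norm_smoothRes_le hε hε1 ρ.2) (norm_nonneg _)

theorem hasSum_resSum (hε : 0 < ε) (hε1 : ε ≤ 1)
    (hsum : Summable fun ρ : {ρ : ℂ // xiFn ρ = 0} =>
      ‖riemannZeta (2 * (ρ : ℂ)) * ((ρ : ℂ) * deriv riemannZeta ρ)⁻¹‖) :
    HasSum (fun ρ : {ρ : ℂ // xiFn ρ = 0} => riemannZeta (2 * (ρ : ℂ)) * smoothRes ε y ρ)
      (resSum ε y) := by
  refine (Summable.of_norm_bounded (hsum.mul_left (2 * Real.exp (1 + |y|) / √ε)) fun ρ => ?_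
    ).hasSum
  rw [div_mul_eq_mul_div, le_div_iff₀ (Real.sqrt_pos.2 hε)]
  have := norm_term_le (y := y) hε hε1 ρ
  rw [norm_mul, norm_real, Real.norm_of_nonneg (Real.sqrt_nonneg _)] at this
  linarith

theorem continuous_ratio_line (hRH : RiemannHypothesis) {σ : ℝ} (hσ : σ = 1 / 4 ∨ σ = 3) :
    Continuous fun t : ℝ => ratio ((σ : ℂ) + t * I) := by
  refine continuous_iff_continuousAt.2 fun t => ContinuousAt.comp' (g := ratio)
    (differentiableAt_ratio (fun h => ?_) fun h => ?_).continuousAt (by fun_prop)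
  · have := FA.XiProduct.re_eq_half hRH (FA.MertensOmega.xiFn_of_zeta₁_zero
      (by rcases hσ with rfl | rfl <;> simp <;> linarith) h)
    simp at this
    rcases hσ with rfl | rfl <;> norm_num at this
  · have := congrArg Complex.re h
    simp at this
    rcases hσ with rfl | rfl <;> norm_num at this

theorem integrable_ratio (hRH : RiemannHypothesis) (hε : 0 < ε) {σ : ℝ}
    (hσ : σ = 1 / 4 ∨ σ = 3) :
    Integrable fun t : ℝ => gaussKer ε y ((σ : ℂ) + t * I) * ratio ((σ : ℂ) + t * I) := by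
  obtain ⟨K, hK⟩ : ∃ K, ∀ t : ℝ, ‖ratio ((σ : ℂ) + t * I)‖ ≤ K := by
    rcases hσ with rfl | rfl
    · obtain ⟨C, hC⟩ := exists_ratio_left hRH
      refine ⟨|C|, fun t => (hC t).trans ?_⟩
      exact (mul_le_mul_of_nonneg_right (le_abs_self C) (Real.rpow_nonneg (by positivity) _)).trans
        (mul_le_of_le_one_right (abs_nonneg C) (Real.rpow_le_one_of_one_le_of_nonpos
          (by linarith [abs_nonneg t]) (by norm_num)))
    · obtain ⟨K, -, hK⟩ := FA.MertensOmega.exists_invZeta_right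
      refine ⟨K * ∑' n : ℕ, (n : ℝ) ^ (-(6 : ℝ)), fun t => ?_⟩
      rw [ratio, norm_mul]
      refine mul_le_mul (hK _ (by norm_num)) ?_ (norm_nonneg _)
        ((norm_nonneg _).trans (hK (3 : ℂ) (by norm_num)))
      have hre : (2 * (((3 : ℝ) : ℂ) + t * I)).re = 6 := by simp; norm_num
      rw [← LSeries_one_eq_riemannZeta (by rw [hre]; norm_num), LSeries]
      refine tsum_of_norm_bounded (Real.summable_nat_rpow.2 (by norm_num)).hasSum fun n => ?_
      rw [LSeries.norm_term_eq, hre]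
      split_ifs with hn
      · exact Real.rpow_nonneg (Nat.cast_nonneg _) _
      · rw [Pi.one_apply, norm_one, Real.rpow_neg (Nat.cast_nonneg _), one_div]
  refine ((integrable_exp_neg_mul_sq hε).const_mul (Real.exp (ε * σ ^ 2 + y * σ) * K)).mono'
    ((differentiable_gaussKer.continuous.comp (by fun_prop)).mul
      (continuous_ratio_line hRH hσ)).aestronglyMeasurable (Eventually.of_forall fun t => ?_)
  rw [norm_mul, norm_gaussKer, show ((σ : ℂ) + t * I).re = σ by simp,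
    show ((σ : ℂ) + t * I).im = t by simp, mul_right_comm, ← Real.exp_add,
    show ε * σ ^ 2 + y * σ + -ε * t ^ 2 = ε * (σ ^ 2 - t ^ 2) + y * σ by ring]
  exact mul_le_mul_of_nonneg_left (hK t) (Real.exp_pos _).le

/-- **The smoothed explicit formula.** -/
theorem line_sub_ratio (hRH : RiemannHypothesis) (hε : 0 < ε) (hε1 : ε ≤ 1)
    (hs : ∀ ρ : ℂ, xiFn ρ = 0 → deriv riemannZeta ρ ≠ 0)
    (hsum : Summable fun ρ : {ρ : ℂ // xiFn ρ = 0} =>
      ‖riemannZeta (2 * (ρ : ℂ)) * ((ρ : ℂ) * deriv riemannZeta ρ)⁻¹‖) :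
    (∫ t : ℝ, gaussKer ε y (((3 : ℝ) : ℂ) + t * I) * ratio (((3 : ℝ) : ℂ) + t * I)) -
      (∫ t : ℝ, gaussKer ε y (((1 / 4 : ℝ) : ℂ) + t * I) * ratio (((1 / 4 : ℝ) : ℂ) + t * I)) =
      2 * π * (gaussKer ε y (1 / 2) * invZeta (1 / 2) / 2 + resSum ε y) := by
  classical
  obtain ⟨T, B, hlow, hord, hB⟩ := exists_ratio_heights
  have hTt : Tendsto T atTop atTop := tendsto_atTop_mono
    (fun m => le_trans (le_add_of_nonneg_right (by norm_num)) (hlow m)) tendsto_natCast_atTop_atTop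
  have hat : Tendsto (fun m => (zerosUpTo (T m)).subtype fun ρ => xiFn ρ = 0) atTop atTop := by
    refine tendsto_atTop.2 fun S => ?_
    filter_upwards [hTt.eventually (eventually_ge_atTop (∑ ρ ∈ S, |(ρ : ℂ).im|))] with m hm
    intro ρ hρ
    rw [Finset.mem_subtype, mem_zerosUpTo]
    exact ⟨ρ.2, le_trans (Finset.single_le_sum
      (f := fun ρ : {ρ : ℂ // xiFn ρ = 0} => |(ρ : ℂ).im|) (fun i _ => abs_nonneg _) hρ) hm⟩
  have hZ : Tendsto (fun m => ∑ ρ ∈ zerosUpTo (T m), riemannZeta (2 * ρ) * smoothRes ε y ρ) atTop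
      (𝓝 (resSum ε y)) := by
    refine ((hasSum_resSum hε hε1 hsum).comp hat).congr fun m => ?_
    exact Finset.sum_subtype_of_mem (fun ρ => riemannZeta (2 * ρ) * smoothRes ε y ρ)
      fun ρ hρ => (mem_zerosUpTo.1 hρ).1
  have hR := ((hZ.const_add (gaussKer ε y (1 / 2) * invZeta (1 / 2) / 2)).const_mul
    (2 * π * I)).congr fun m => (boxInt_ratio (ε := ε) (y := y) hRH hs
      (show 0 < T m by linarith [hlow m, (Nat.cast_nonneg m : (0 : ℝ) ≤ m)]) (hord m)).symm
  have heq := FA.MertensOmega.line_sub_of_boxInt (H := ratio) hε (by norm_num : (-1 : ℝ) ≤ 1 / 4)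
    (by norm_num) le_rfl hTt hB (integrable_ratio hRH hε (Or.inl rfl))
    (integrable_ratio hRH hε (Or.inr rfl)) hR
  apply mul_left_cancel₀ I_ne_zero
  linear_combination heq

/-- **On RH with simple zeros `∑ |ζ (2 ρ) / (ρ ζ' ρ)|` diverges.** -/
theorem not_summable_residues (hRH : RiemannHypothesis)
    (hs : ∀ ρ : ℂ, xiFn ρ = 0 → deriv riemannZeta ρ ≠ 0) :
    ¬Summable fun ρ : {ρ : ℂ // xiFn ρ = 0} =>
      ‖riemannZeta (2 * (ρ : ℂ)) * ((ρ : ℂ) * deriv riemannZeta ρ)⁻¹‖ := by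
  intro hsum
  obtain ⟨C, hC⟩ := exists_ratio_left hRH
  obtain ⟨y, hy⟩ : ∃ y, y = Real.log ((2 : ℕ) : ℝ) := ⟨_, rfl⟩
  have h3 := FA.MertensOmega.tendsto_sqrt_series
    (a := fun n => (ArithmeticFunction.liouville n : ℂ)) (H := ratio)
    FA.OneSided.norm_liouville_le_one (by simp)
    (fun s hs => FA.OneSided.lSeries_liouville (by rw [hs]; norm_num)) two_pos
  rw [← hy] at h3
  have hleft := FA.MertensOmega.tendsto_sqrt_line_zero (H := ratio) hC y
  have hterm : ∀ z : ℂ, Continuous fun ε : ℝ => ((√ε : ℝ) : ℂ) * gaussKer ε y z := fun z => by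
    unfold gaussKer
    fun_prop
  have hpole : Tendsto (fun ε : ℝ => ((√ε : ℝ) : ℂ) * gaussKer ε y (1 / 2) *
      (invZeta (1 / 2) / 2)) (𝓝[>] 0) (𝓝 0) := by
    simpa using (((hterm (1 / 2)).tendsto 0).mono_left
      (nhdsWithin_le_nhds (s := Set.Ioi (0 : ℝ)))).mul_const (invZeta (1 / 2) / 2)
  have hres : Tendsto (fun ε : ℝ => ∑' ρ : {ρ : ℂ // xiFn ρ = 0},
      ((√ε : ℝ) : ℂ) * (riemannZeta (2 * (ρ : ℂ)) * smoothRes ε y ρ)) (𝓝[>] 0) (𝓝 0) := by
    have h := tendsto_tsum_of_dominated_convergence (𝓕 := 𝓝[>] (0 : ℝ))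
      (f := fun ε (ρ : {ρ : ℂ // xiFn ρ = 0}) =>
        ((√ε : ℝ) : ℂ) * (riemannZeta (2 * (ρ : ℂ)) * smoothRes ε y ρ))
      (g := fun _ => (0 : ℂ)) (hsum.mul_left (2 * Real.exp (1 + |y|))) (fun ρ => ?_) ?_
    · simpa using h
    · have := ((((hterm (ρ : ℂ)).tendsto 0).mono_left
        (nhdsWithin_le_nhds (s := Set.Ioi (0 : ℝ)))).mul_const
          (riemannZeta (2 * (ρ : ℂ)) * (deriv riemannZeta ρ)⁻¹))
      simp only [Real.sqrt_zero, ofReal_zero, zero_mul] at this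
      refine this.congr fun ε => ?_
      rw [smoothRes]
      ring
    · filter_upwards [Ioc_mem_nhdsGT (zero_lt_one' ℝ)] with ε hε ρ
      exact norm_term_le hε.1 hε.2 ρ
  have hall := (h3.sub hleft).sub ((hpole.add hres).const_mul (2 * π : ℂ))
  rw [add_zero, mul_zero, sub_zero, sub_zero] at hall
  have h0 : ((√π : ℝ) : ℂ) * (ArithmeticFunction.liouville 2 : ℂ) = 0 := by
    refine tendsto_nhds_unique hall (tendsto_const_nhds.congr' ?_)
    filter_upwards [Ioc_mem_nhdsGT (zero_lt_one' ℝ)] with ε hε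
    rw [tsum_mul_left, ← resSum]
    have := line_sub_ratio (y := y) hRH hε.1 hε.2 hs hsum
    linear_combination -(((√ε : ℝ) : ℂ)) * this
  have h2 : (ArithmeticFunction.liouville 2 : ℂ) = -1 := by
    rw [ArithmeticFunction.liouville_apply two_ne_zero,
      ArithmeticFunction.cardFactors_apply_prime Nat.prime_two]
    norm_num
  rw [h2, mul_neg_one, neg_eq_zero, ofReal_eq_zero] at h0
  exact (Real.sqrt_pos.2 Real.pi_pos).ne' h0

end FA.LiouvilleOmega

end
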