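import Fermat.Agent.MertensOmega.GaussMean
import Fermat.Agent.HardyOmega.Zeta
import Fermat.Agent.CycloGrowth.ZetaStrip
import Fermat.Agent.LindelofBacklund.Main
import Fermat.Agent.BohrLandau.Zeros
import Fermat.Agent.XiProduct.Criteria

/-!
# Bounds for `ζ (2 s) / ζ s`

`ζ (1/2) < 0`; `ζ (2 s)` is `exp (O t)` across `1/4 ≤ re s ≤ 3`; on the Riemann hypothesis
`ζ (2 s) / ζ s = O ((1 + |t|) ^ (-1/8))` on `re s = 1/4`, by the functional equation and the
hypothesis of Lindelöf.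
-/

set_option autoImplicit false

noncomputable section

namespace FA.LiouvilleOmega

open Complex MeasureTheory Set FA.RiemannMangoldt
open FA.VonKoch (invZeta invZeta_eq differentiableAt_invZeta)
open scoped Real

theorem exists_zeta_half_neg : ∃ r : ℝ, r < 0 ∧ riemannZeta (1 / 2) = (r : ℂ) := by
  obtain ⟨J, hJ0, hJ⟩ : ∃ J : ℝ, 0 ≤ J ∧ FA.CycloGrowth.fracInt ((1 / 2 : ℝ) : ℂ) = (J : ℂ) := by
    refine ⟨∫ t in Ioi (1 : ℝ), (t - (⌊t⌋₊ : ℝ)) * t ^ (-((1 / 2 : ℝ) + 1)),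
      setIntegral_nonneg measurableSet_Ioi fun t ht => ?_, ?_⟩
    · have ht1 : (1 : ℝ) < t := ht
      exact mul_nonneg (sub_nonneg.2 (Nat.floor_le (by linarith)))
        (Real.rpow_nonneg (by linarith) _)
    · rw [FA.CycloGrowth.fracInt, ← integral_complex_ofReal]
      refine setIntegral_congr_fun measurableSet_Ioi fun t ht => ?_
      rw [Complex.ofReal_mul, Complex.ofReal_cpow (zero_le_one.trans ht.out.le)]
      push_cast
      ring
  refine ⟨-(1 + J / 2), by linarith, ?_⟩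
  have h := FA.CycloGrowth.riemannZeta₁_eq (z := ((1 / 2 : ℝ) : ℂ)) (by simp)
  rw [hJ] at h
  push_cast at h
  rw [riemannZeta_eq_inv_sub_mul (by norm_num), h]
  push_cast
  ring

theorem norm_zeta_le_exp {z : ℂ} (h1 : 1 / 2 ≤ z.re) (h2 : z.re ≤ 6) (ht : 1 ≤ |z.im|) :
    ‖riemannZeta z‖ ≤ Real.exp (7 * |z.im|) := by
  obtain ⟨T, hT⟩ : ∃ T, T = |z.im| := ⟨_, rfl⟩
  rw [← hT] at ht ⊢
  have hne : z ≠ 1 := fun h => by simp [h] at hT; linarith
  have hn : ‖z‖ ≤ T + 6 := (norm_le_abs_re_add_abs_im z).trans (by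
    rw [abs_of_nonneg (by linarith : 0 ≤ z.re), ← hT]; linarith)
  have hn1 : ‖z - 1‖ ≤ T + 7 := (norm_sub_le z 1).trans (by simp; linarith)
  have hn2 : 1 ≤ ‖z - 1‖ := (hT ▸ ht).trans (by simpa using abs_im_le_norm (z - 1))
  have hJ : ‖FA.CycloGrowth.fracInt z‖ ≤ 2 := (FA.CycloGrowth.norm_fracInt_le (by linarith)).trans
    (by rw [div_le_iff₀ (by linarith)]; linarith)
  have h5 : ‖(z - 1) * z * FA.CycloGrowth.fracInt z‖ ≤ (T + 7) * (T + 6) * 2 := by
    rw [norm_mul, norm_mul]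
    exact mul_le_mul (mul_le_mul hn1 hn (norm_nonneg _) (by linarith)) hJ (norm_nonneg _)
      (by positivity)
  have hexp : 120 * T ^ 2 ≤ Real.exp (7 * T) := by
    rw [show 7 * T = 5 * T + 2 * T by ring, Real.exp_add]
    refine mul_le_mul ?_ ?_ (sq_nonneg T) (Real.exp_pos _).le
    · refine le_trans ?_ (Real.exp_le_exp.2 (show (5 : ℝ) ≤ 5 * T by linarith))
      have he := Real.exp_one_gt_d9
      have := pow_le_pow_left₀ (by norm_num) he.le 5
      rw [← Real.exp_nat_mul] at this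
      norm_num at this
      linarith
    · rw [two_mul, Real.exp_add, sq]
      have := Real.add_one_le_exp T
      exact mul_le_mul (by linarith) (by linarith) (by linarith) (Real.exp_pos _).le
  rw [riemannZeta_eq_inv_sub_mul hne, norm_mul, norm_inv, inv_mul_le_iff₀ (by linarith),
    FA.CycloGrowth.riemannZeta₁_eq (by linarith)]
  refine ((norm_sub_le _ _).trans (add_le_add hn h5)).trans ?_
  refine le_trans ?_ (le_mul_of_one_le_left (Real.exp_pos _).le hn2)
  nlinarith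

/-- `ζ (2 s) / ζ s`. -/
def ratio (s : ℂ) : ℂ := invZeta s * riemannZeta (2 * s)

theorem differentiableAt_ratio {s : ℂ} (h : riemannZeta₁ s ≠ 0) (hs : s ≠ 1 / 2) :
    DifferentiableAt ℂ ratio s := by
  unfold ratio
  exact (differentiableAt_invZeta h).mul
    ((differentiableAt_riemannZeta fun h => hs (by linear_combination (1 / 2 : ℂ) * h)).comp s
      (differentiableAt_id.const_mul 2))

/-- **The left line on the Riemann hypothesis.** -/
theorem exists_ratio_left (hRH : RiemannHypothesis) : ∃ C, ∀ t : ℝ,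
    ‖ratio (((1 / 4 : ℝ) : ℂ) + t * I)‖ ≤ C * (1 + |t|) ^ (-(1 / 8) : ℝ) := by
  have hzf : ∀ s : ℂ, 1 / 2 < s.re → riemannZeta₁ s ≠ 0 := fun s hs h => by
    have := FA.XiProduct.re_eq_half hRH
      (FA.MertensOmega.xiFn_of_zeta₁_zero (by linarith) h)
    linarith
  obtain ⟨K, hK, hgrow⟩ := FA.VonKoch.exists_growth (σ₁ := 3 / 4) (le_refl (1 / 2 : ℝ))
    (by norm_num) (by norm_num) hzf (η := 1 / 16) (by norm_num)
  obtain ⟨L, hL⟩ := FA.Backlund.lindelof_iff.2 (FA.Backlund.zerosSparse_of_riemannHypothesis hRH)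
    (1 / 16) (by norm_num)
  have hcont : ∀ t : ℝ, ContinuousAt (fun t : ℝ => ratio (((1 / 4 : ℝ) : ℂ) + t * I)) t := by
    intro t
    refine ContinuousAt.comp' (g := ratio) (differentiableAt_ratio (fun h => ?_) fun h => ?_
      ).continuousAt (by fun_prop)
    · have := FA.XiProduct.re_eq_half hRH
        (FA.MertensOmega.xiFn_of_zeta₁_zero (by simp; norm_num) h)
      simp at this
    · have := congrArg Complex.re h
      simp at this
  obtain ⟨M, hM⟩ := (isCompact_Icc (a := (-2 : ℝ)) (b := 2)).exists_bound_of_continuousOn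
    (fun t _ => (hcont t).continuousWithinAt)
  refine ⟨|M| * 3 + 32 * Real.exp 12 * K * |L| * 2, fun t => ?_⟩
  obtain ⟨X, hX⟩ : ∃ X, X = 1 + |t| := ⟨_, rfl⟩
  rw [← hX]
  have hX1 : 1 ≤ X := by rw [hX]; linarith [abs_nonneg t]
  have hp : 0 < X ^ (-(1 / 8) : ℝ) := Real.rpow_pos_of_pos (by linarith) _
  have hA : 0 ≤ 32 * Real.exp 12 * K * |L| * 2 := by positivity
  rcases le_or_gt |t| 2 with h2 | h2
  · have h3 : 1 / 3 ≤ X ^ (-(1 / 8) : ℝ) := by
      refine le_trans ?_ (Real.rpow_le_rpow_of_exponent_le hX1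
        (show (-1 : ℝ) ≤ -(1 / 8) by norm_num))
      rw [Real.rpow_neg_one, one_div]
      exact inv_anti₀ (by linarith) (by rw [hX]; linarith)
    refine ((hM t (abs_le.1 h2)).trans (le_abs_self M)).trans ?_
    nlinarith [abs_nonneg M]
  obtain ⟨T, hT⟩ : ∃ T, T = |t| := ⟨_, rfl⟩
  rw [← hT] at h2 hX
  have hne : ((1 / 4 : ℝ) : ℂ) + t * I ≠ 1 := fun h => by
    have := congrArg Complex.re h
    simp at this
  have habs : ∀ a : ℝ,
      ‖riemannZeta ((a : ℂ) + t * I)‖ = ‖riemannZeta ((a : ℂ) + T * I)‖ := fun a => by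
    rcases abs_choice t with h | h
    · rw [hT, h]
    · rw [hT, h, FA.BohrLandau.norm_zeta_neg]
  have hfe := FA.HardyOmega.norm_zeta_ge (σ := 1 / 4) (t := T) (by norm_num) (by norm_num) h2.le
  rw [← habs, show (1 : ℝ) - 1 / 4 = 3 / 4 by norm_num, ← habs,
    show (1 : ℝ) / 2 - 1 / 4 = 1 / 4 by norm_num] at hfe
  have h34 : ((3 / 4 : ℝ) : ℂ) + t * I ≠ 1 := fun h => by
    have := congrArg Complex.re h
    simp at this
    norm_num at this
  have hz34 : riemannZeta (((3 / 4 : ℝ) : ℂ) + t * I) ≠ 0 := fun h =>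
    hzf _ (by simp; norm_num) (FA.PsiOscillation.riemannZeta₁_eq_zero h h34)
  have hz34' := norm_pos_iff.2 hz34
  have hb := (hgrow (((3 / 4 : ℝ) : ℂ) + t * I) (by simp) (by simp; norm_num)).2.2
  rw [invZeta_eq h34, norm_inv, show (((3 / 4 : ℝ) : ℂ) + t * I).im = t by simp] at hb
  have hw : FA.VonKoch.weight (1 / 16) t ≤ X ^ (1 / 16 : ℝ) := by
    rw [FA.VonKoch.weight]
    refine (Real.rpow_le_rpow (by positivity) (show 1 + t ^ 2 ≤ X ^ 2 by
      rw [hX, hT]; nlinarith [abs_nonneg t, sq_abs t]) (by norm_num)).trans (le_of_eq ?_)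
    rw [← Real.rpow_natCast X 2, ← Real.rpow_mul (by linarith)]
    norm_num
  have hline : ‖riemannZeta (2 * (((1 / 4 : ℝ) : ℂ) + t * I))‖ ≤ |L| * (2 * X ^ (1 / 16 : ℝ)) := by
    rw [show (2 : ℂ) * (((1 / 4 : ℝ) : ℂ) + t * I) = ((1 / 2 : ℝ) : ℂ) + ((2 * t : ℝ) : ℂ) * I by
      push_cast; ring]
    have e : |2 * t| = 2 * T := by rw [abs_mul, abs_two, hT]
    refine (hL (2 * t) (by rw [e]; linarith)).trans ?_
    rw [e]
    refine mul_le_mul (le_abs_self L) ((Real.rpow_le_rpow (by linarith)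
      (show 2 * T ≤ 2 * X by linarith) (by norm_num)).trans ?_) (Real.rpow_nonneg (by linarith) _)
      (abs_nonneg _)
    rw [Real.mul_rpow (by norm_num) (by linarith)]
    refine mul_le_mul_of_nonneg_right ?_ (Real.rpow_nonneg (by linarith) _)
    exact Real.rpow_le_self_of_one_le (by norm_num) (by norm_num)
  have hT4 : (X / 2) ^ (1 / 4 : ℝ) ≤ T ^ (1 / 4 : ℝ) :=
    Real.rpow_le_rpow (by linarith) (by linarith) (by norm_num)
  have hX4 : 0 < (X / 2) ^ (1 / 4 : ℝ) := Real.rpow_pos_of_pos (by linarith) _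
  have hinv : ‖invZeta (((1 / 4 : ℝ) : ℂ) + t * I)‖ ≤
      16 * Real.exp 12 * (2 * X ^ (-(1 / 4) : ℝ)) * (K * X ^ (1 / 16 : ℝ)) := by
    rw [invZeta_eq hne, norm_inv]
    refine (inv_anti₀ (mul_pos (mul_pos (by positivity) hX4) hz34')
      ((mul_le_mul_of_nonneg_right (mul_le_mul_of_nonneg_left hT4 (by positivity))
        hz34'.le).trans hfe)).trans ?_
    rw [mul_inv, mul_inv]
    refine mul_le_mul (mul_le_mul (le_of_eq ?_) ?_ (by positivity) (by positivity))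
      (hb.trans (mul_le_mul_of_nonneg_left hw hK)) (by positivity) (by positivity)
    · rw [Real.exp_neg]; field_simp
    · rw [Real.div_rpow (by linarith) (by norm_num), inv_div, Real.rpow_neg (by linarith),
        div_eq_mul_inv]
      refine mul_le_mul_of_nonneg_right ?_ (inv_nonneg.2 (Real.rpow_nonneg (by linarith) _))
      exact Real.rpow_le_self_of_one_le (by norm_num) (by norm_num)
  rw [ratio, norm_mul]
  refine (mul_le_mul hinv hline (norm_nonneg _) (by positivity)).trans ?_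
  have e8 : X ^ (-(1 / 4) : ℝ) * X ^ (1 / 16 : ℝ) * X ^ (1 / 16 : ℝ) = X ^ (-(1 / 8) : ℝ) := by
    rw [← Real.rpow_add (by linarith), ← Real.rpow_add (by linarith)]
    norm_num
  calc 16 * Real.exp 12 * (2 * X ^ (-(1 / 4) : ℝ)) * (K * X ^ (1 / 16 : ℝ)) *
        (|L| * (2 * X ^ (1 / 16 : ℝ)))
      = 32 * Real.exp 12 * K * |L| * 2 *
          (X ^ (-(1 / 4) : ℝ) * X ^ (1 / 16 : ℝ) * X ^ (1 / 16 : ℝ)) := by ring
    _ ≤ _ := by rw [e8]; nlinarith [mul_nonneg (abs_nonneg M) hp.le]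

/-- The horizontal sides. -/
theorem exists_ratio_heights : ∃ (T : ℕ → ℝ) (B : ℝ), (∀ m : ℕ, (m : ℝ) + 3 ≤ T m) ∧
    (∀ m ρ, xiFn ρ = 0 → |ρ.im| ≠ T m) ∧
    ∀ (m : ℕ) (u t : ℝ), 1 / 4 ≤ u → u ≤ 3 → |t| = T m →
      ‖ratio ((u : ℂ) + t * I)‖ ≤ Real.exp (B * T m) := by
  obtain ⟨T, B, hlow, hord, hB⟩ := FA.MertensOmega.exists_heights
  refine ⟨T, B + 14, hlow, hord, fun m u t hu hu3 ht => ?_⟩
  have hT3 : 3 ≤ T m := le_trans (by linarith [(Nat.cast_nonneg m : (0 : ℝ) ≤ m)]) (hlow m)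
  rw [ratio, norm_mul, add_mul, Real.exp_add]
  refine mul_le_mul (hB m u t (by linarith) hu3 ht) ?_ (norm_nonneg _) (Real.exp_pos _).le
  have e : |(2 * ((u : ℂ) + t * I)).im| = 2 * T m := by simp [abs_mul, ht]
  refine (norm_zeta_le_exp (by simp; linarith) (by simp; linarith) (by rw [e]; linarith)).trans ?_
  rw [e]
  exact le_of_eq (by ring_nf)

end FA.LiouvilleOmega

end
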