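import Fermat.Agent.LiouvilleOmega.Series
import Fermat.Agent.LiouvilleOmega.Divergence
import Fermat.Agent.MertensOmega.Ingham

/-!
# Ingham's theorem for the Liouville function

A bound `e L n ≤ C √n` makes the zeros simple and gives `|ζ (2 ρ) / (ρ ζ' ρ)| ≤ C - e / ζ (1/2)`;
with linearly independent ordinates it bounds the sum of these over all zeros, which diverges.
-/

set_option autoImplicit false

noncomputable section

open Complex Filter Topology
open FA.RiemannMangoldt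
open FA.OneSided (liouvilleSum)
open FA.MertensOmega (onLine onLine_re onLine_ne_one conj_onLine zero_data free_of_independent freq)
open scoped ComplexConjugate

namespace FA.LiouvilleOmega

variable {C e : ℝ}

theorem exists_cut (h : ∀ᶠ n : ℕ in atTop, e * liouvilleSum n ≤ C * √n) :
    ∃ N, 1 ≤ N ∧ ∀ n, N ≤ n → e * liouvilleSum n ≤ C * √n := by
  obtain ⟨N, hN⟩ := eventually_atTop.1 h
  exact ⟨N + 1, Nat.le_add_left 1 N, fun n hn => hN n (Nat.le_of_succ_le hn)⟩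

theorem inv_zeta_half : (riemannZeta (1 / 2))⁻¹.re = (riemannZeta (1 / 2)).re⁻¹ := by
  obtain ⟨r, -, hr⟩ := exists_zeta_half_neg
  rw [hr, ← ofReal_inv, ofReal_re, ofReal_re]

theorem resid_eq {ρ : ℂ} (h : ρ = onLine ρ.im) :
    resid ρ.im = riemannZeta (2 * ρ) * (ρ * deriv riemannZeta ρ)⁻¹ := by
  rw [resid, FA.MertensOmega.resid, ← h]

/-- **A one-sided bound makes every zero simple.** -/
theorem simple_of_bound (he : |e| = 1) (h : ∀ᶠ n : ℕ in atTop, e * liouvilleSum n ≤ C * √n) :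
    RiemannHypothesis ∧ ∀ ρ : ℂ, xiFn ρ = 0 → deriv riemannZeta ρ ≠ 0 ∧
      ‖riemannZeta (2 * ρ) * (ρ * deriv riemannZeta ρ)⁻¹‖ ≤
        C - e * (riemannZeta (1 / 2)).re⁻¹ := by
  obtain ⟨N, hN1, hN⟩ := exists_cut h
  have he0 : e ≠ 0 := fun h0 => by simp [h0] at he
  have hRH := riemannHypothesis_of_bound he0 hN
  refine ⟨hRH, fun ρ hρ => ?_⟩
  obtain ⟨h1, h2, h3⟩ := zero_data hRH hρ
  have hr := resid_le hN1 he0 hN h2 h3
  rw [he, one_mul, inv_zeta_half, resid_eq h1] at hr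
  exact ⟨h1 ▸ deriv_ne_zero hN1 he0 hN h2 h3, hr⟩

/-- `L n < -c √n` infinitely often with `c > 1/|ζ (1/2)|`. -/
theorem exists_frequently_lt : ∃ c : ℝ, 1 / ‖riemannZeta (1 / 2)‖ < c ∧
    ∃ᶠ n : ℕ in atTop, liouvilleSum n < -(c * √n) := by
  obtain ⟨r, hr0, hr⟩ := exists_zeta_half_neg
  have hn : 1 / ‖riemannZeta (1 / 2)‖ = -r⁻¹ := by
    rw [hr, norm_real, Real.norm_eq_abs, abs_of_neg hr0, one_div, inv_neg]
  obtain ⟨γ, hγ⟩ := FA.HardyZeros.infinite_zeros.nonempty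
  have hz : riemannZeta (onLine γ) = 0 := hγ
  have hxi : xiFn (onLine γ) = 0 :=
    (xiFn_eq_zero_iff (by rw [onLine_re]; norm_num) (onLine_ne_one γ)).2 hz
  by_cases hd : deriv riemannZeta (onLine γ) = 0
  · refine ⟨-r⁻¹ + 1, by rw [hn]; linarith, fun h => ?_⟩
    simp only [not_lt] at h
    exact ((simple_of_bound (e := -1) (C := -r⁻¹ + 1) (by norm_num)
      (h.mono fun n hn => by linarith)).2 _ hxi).1 hd
  · have hres : 0 < ‖riemannZeta (2 * onLine γ) *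
        (onLine γ * deriv riemannZeta (onLine γ))⁻¹‖ :=
      norm_pos_iff.2 (mul_ne_zero (double_ne_zero γ)
        (inv_ne_zero (mul_ne_zero (FA.MertensOmega.onLine_ne_zero γ) hd)))
    refine ⟨-r⁻¹ + ‖riemannZeta (2 * onLine γ) *
      (onLine γ * deriv riemannZeta (onLine γ))⁻¹‖ / 2, by rw [hn]; linarith, fun h => ?_⟩
    simp only [not_lt] at h
    have h1 := ((simple_of_bound (e := -1) (C := -r⁻¹ + ‖riemannZeta (2 * onLine γ) *
      (onLine γ * deriv riemannZeta (onLine γ))⁻¹‖ / 2) (by norm_num)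
      (h.mono fun n hn => by linarith)).2 _ hxi).2
    rw [hr, ofReal_re] at h1
    linarith

theorem resid_neg (w : ℝ) : resid (-w) = conj (resid w) := by
  rw [resid, resid, map_mul, FA.MertensOmega.resid_neg, ← riemannZeta_conj, map_mul, conj_ofNat,
    conj_onLine]

/-- The sum over finitely many independent ordinates. -/
theorem sum_resid_le
    (hLI : LinearIndependent ℚ fun x : {x : ℝ // 0 < x ∧ riemannZeta (onLine x) = 0} => (x : ℝ))
    (he : |e| = 1) (h : ∀ᶠ n : ℕ in atTop, e * liouvilleSum n ≤ C * √n)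
    (S : Finset ℝ) (hS : ∀ x ∈ S, 0 < x ∧ riemannZeta (onLine x) = 0) :
    ∑ x ∈ S, ‖resid x‖ ≤ C - e * (riemannZeta (1 / 2)).re⁻¹ := by
  classical
  obtain ⟨N, hN1, hN⟩ := exists_cut h
  have he0 : e ≠ 0 := fun h0 => by simp [h0] at he
  have hfree : ∀ ε : {x : ℝ // x ∈ S} → Fin 3, (∃ i j, i ≠ j ∧ ε i ≠ 0 ∧ ε j ≠ 0) →
      Tendsto (fun δ : ℝ => (δ : ℂ) *
        cont C e N (onLine (freq (fun x : {x : ℝ // x ∈ S} => (x : ℝ)) ε) + δ))
        (𝓝[>] 0) (𝓝 0) := by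
    rintro ε ⟨i, j, hij, hi, hj⟩
    obtain ⟨c, hc⟩ : ∃ c : ℝ → ℤ, c = fun x =>
        if hx : x ∈ S then (![0, 1, -1] : Fin 3 → ℤ) (ε ⟨x, hx⟩) else 0 := ⟨_, rfl⟩
    have hval : ∀ k : Fin 3,
        (((![0, 1, -1] : Fin 3 → ℤ) k : ℤ) : ℝ) = FA.MertensOmega.sgn k := fun k => by
      fin_cases k <;> simp [FA.MertensOmega.sgn]
    have hne : ∀ k : Fin 3, k ≠ 0 → (![0, 1, -1] : Fin 3 → ℤ) k ≠ 0 := by decide
    have hf : freq (fun x : {x : ℝ // x ∈ S} => (x : ℝ)) ε = ∑ x ∈ S, (c x : ℝ) * x := by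
      rw [freq, ← Finset.sum_coe_sort S fun x => (c x : ℝ) * x]
      refine Finset.sum_congr rfl fun x _ => ?_
      simp only [hc, x.2, dif_pos, Subtype.coe_eta, hval]
    obtain ⟨h1, h2⟩ := free_of_independent hLI S hS c ⟨i, i.2, j, j.2,
      fun e => hij (Subtype.ext e),
      by simp only [hc, i.2, dif_pos, Subtype.coe_eta]; exact hne _ hi,
      by simp only [hc, j.2, dif_pos, Subtype.coe_eta]; exact hne _ hj⟩
    rw [hf]
    exact tendsto_cont_regular h1 h2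
  have hmain := (isNonnegSeries hN1 he0 hN).sum_limit_le tendsto_cont_zero
    (fun x : {x : ℝ // x ∈ S} => (x : ℝ)) (fun x => -(e * resid x))
    (fun x => tendsto_cont_resid hN1 he0 hN (hS x x.2).1.ne' (hS x x.2).2) hfree
  simp only [norm_neg, norm_mul, norm_real, Real.norm_eq_abs, he, one_mul, sub_re, ofReal_re,
    re_ofReal_mul, inv_zeta_half] at hmain
  rwa [Finset.sum_coe_sort S fun x => ‖resid x‖] at hmain

/-- **Ingham's theorem for `L`.** -/
theorem not_eventually_le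
    (hLI : LinearIndependent ℚ fun x : {x : ℝ // 0 < x ∧ riemannZeta (onLine x) = 0} => (x : ℝ))
    (he : |e| = 1) : ¬∀ᶠ n : ℕ in atTop, e * liouvilleSum n ≤ C * √n := by
  classical
  intro h
  obtain ⟨hRH, hsimple⟩ := simple_of_bound he h
  obtain ⟨D, hD⟩ : ∃ D, D = C - e * (riemannZeta (1 / 2)).re⁻¹ := ⟨_, rfl⟩
  refine not_summable_residues hRH (fun ρ hρ => (hsimple ρ hρ).1)
    (summable_of_sum_le (fun ρ => norm_nonneg _) (c := D + D) fun U => ?_)
  have hnorm : ∀ ρ : {ρ : ℂ // xiFn ρ = 0},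
      ‖riemannZeta (2 * (ρ : ℂ)) * ((ρ : ℂ) * deriv riemannZeta ρ)⁻¹‖ =
        ‖resid |(ρ : ℂ).im|‖ := fun ρ => by
    rw [← resid_eq (zero_data hRH ρ.2).1]
    rcases abs_choice (ρ : ℂ).im with h | h
    · rw [h]
    · rw [h, resid_neg, Complex.norm_conj]
  have hpart : ∀ V : Finset {ρ : ℂ // xiFn ρ = 0},
      (Set.InjOn (fun ρ : {ρ : ℂ // xiFn ρ = 0} => |(ρ : ℂ).im|) (V : Set _)) →
      ∑ ρ ∈ V, ‖riemannZeta (2 * (ρ : ℂ)) * ((ρ : ℂ) * deriv riemannZeta ρ)⁻¹‖ ≤ D := by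
    intro V hV
    rw [Finset.sum_congr rfl fun ρ _ => hnorm ρ,
      ← Finset.sum_image (f := fun x => ‖resid x‖) hV, hD]
    refine sum_resid_le hLI he h _ fun x hx => ?_
    obtain ⟨ρ, -, rfl⟩ := Finset.mem_image.1 hx
    obtain ⟨-, h2, h3⟩ := zero_data hRH ρ.2
    refine ⟨abs_pos.2 h2, ?_⟩
    rcases abs_choice (ρ : ℂ).im with h | h
    · rwa [h]
    · rw [h, ← conj_onLine, riemannZeta_conj, h3, map_zero]
  rw [← Finset.sum_filter_add_sum_filter_not U fun ρ => 0 < (ρ : ℂ).im]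
  have hinj : ∀ ρ σ : {ρ : ℂ // xiFn ρ = 0}, (ρ : ℂ).im = (σ : ℂ).im → ρ = σ := fun ρ σ h =>
    Subtype.ext (by rw [(zero_data hRH ρ.2).1, (zero_data hRH σ.2).1, h])
  refine add_le_add (hpart _ fun ρ hρ σ hσ h => hinj ρ σ ?_)
    (hpart _ fun ρ hρ σ hσ h => hinj ρ σ ?_)
  · simp only [Finset.coe_filter, Set.mem_ofPred_eq] at hρ hσ
    simp only [abs_of_pos hρ.2, abs_of_pos hσ.2] at h
    exact h
  · simp only [Finset.coe_filter, Set.mem_ofPred_eq, not_lt] at hρ hσ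
    simp only [abs_of_nonpos hρ.2, abs_of_nonpos hσ.2, neg_inj] at h
    exact h

end FA.LiouvilleOmega

end
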