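import Fermat.Agent.LiouvilleOmega.Abstract

/-!
# One-sided bounds `e L n ≤ C √n`

The series of the tail is `C ζ (z + 1/2) - e (ζ (2 z) / ζ z + ⋯) / z`. At `1/2` the pole of
`ζ (2 z)` gives `δ F → C - e / ζ (1/2)`, at a simple zero `ρ` the limit is
`-e ζ (2 ρ) / (ρ ζ' ρ)`, and a multiple zero is impossible.
-/

set_option autoImplicit false

noncomputable section

open Complex Filter Topology Set
open FA.MertensOmega (onLine onLine_re onLine_im onLine_ne_zero onLine_ne_one onLine_zero
  conj_onLine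
  tendsto_shift tendsto_mul_of_continuousAt tendsto_invZeta_regular tendsto_invZeta_simple
  tendsto_slope_zeta eventually_invZeta zeta_half_ne_zero)
open FA.VonKoch (invZeta invZeta_eq)
open FA.OneSided (summatory defect liouvilleSum)
open scoped ComplexConjugate ComplexOrder

namespace FA.LiouvilleOmega

/-- The coefficients of `ζ (2 s) / ζ s`. -/
def liouvilleC (n : ℕ) : ℂ := (ArithmeticFunction.liouville n : ℂ)

/-- `ζ (2 ρ) / (ρ ζ' ρ)` at `ρ = 1/2 + i w`. -/
def resid (w : ℝ) : ℂ := riemannZeta (2 * onLine w) * FA.MertensOmega.resid w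

/-- `C √n - e L n` from `N` on. -/
def tail (C e : ℝ) (N n : ℕ) : ℝ := if n < N then 0 else C * √n - e * liouvilleSum n

/-- The coefficients before the cut. -/
def coeff (C e : ℝ) (n : ℕ) : ℂ := ((C * √n - e * liouvilleSum n : ℝ) : ℂ)

/-- The removed terms. -/
def headSum (C e : ℝ) (N : ℕ) (z : ℂ) : ℂ :=
  ∑ n ∈ Finset.range N, LSeries.term (coeff C e) (z + 1) n

/-- The continued series of the tail. -/
def cont (C e : ℝ) (N : ℕ) (z : ℂ) : ℂ :=
  C * riemannZeta (z + 1 / 2) -
    e * ((invZeta z * riemannZeta (2 * z) + defect liouvilleC z) / z) - headSum C e N z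

variable {C e : ℝ} {N : ℕ}

theorem differentiableAt_headSum (z : ℂ) : DifferentiableAt ℂ (headSum C e N) z :=
  DifferentiableAt.fun_sum fun n _ => DifferentiableAt.comp (f := fun w : ℂ => w + 1) z
    (g := fun s => LSeries.term (coeff C e) s n) (FA.Signs.differentiable_term _ n _)
    (differentiableAt_id.add_const 1)

theorem norm_summatory_le (n : ℕ) : ‖summatory liouvilleC n‖ ≤ 1 * (n : ℝ) ^ (1 : ℝ) :=
  FA.OneSided.norm_sum_le_card liouvilleC FA.OneSided.norm_liouville_le_one n

theorem differentiableAt_defect {z : ℂ} (hz : 0 < z.re) :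
    DifferentiableAt ℂ (defect liouvilleC) z :=
  (FA.OneSided.differentiableOn_defect (fun n _ => norm_summatory_le n)
    zero_le_one).differentiableAt
    ((isOpen_lt continuous_const continuous_re).mem_nhds (show (1 : ℝ) - 1 < z.re by linarith))

theorem differentiableAt_double {z : ℂ} (hz : z ≠ 1 / 2) :
    DifferentiableAt ℂ (fun s => riemannZeta (2 * s)) z :=
  (differentiableAt_riemannZeta fun h => hz (by linear_combination (1 / 2 : ℂ) * h)).comp z
    (differentiableAt_id.const_mul 2)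

/-- The bound gives the zero-free half plane. -/
theorem zero_free (he : e ≠ 0) (hN : ∀ n, N ≤ n → e * liouvilleSum n ≤ C * √n) {z : ℂ}
    (hz : 1 / 2 < z.re) : riemannZeta₁ z ≠ 0 := by
  rcases lt_or_ge z.re 1 with h1 | h1
  · intro h0
    have hne : z ≠ 1 := fun h => by rw [h] at h1; simp at h1
    refine FA.OneSided.liouville_zero_free (α := 1 / 2) (C := C) le_rfl (by norm_num) he ?_
      hz h1 (by rw [riemannZeta_eq_inv_sub_mul hne, h0, mul_zero])
    filter_upwards [eventually_ge_atTop N] with n hn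
    rw [← Real.sqrt_eq_rpow]
    exact hN n hn
  · exact FA.ZeroFree.riemannZeta₁_ne_zero_of_one_le h1

theorem riemannHypothesis_of_bound (he : e ≠ 0)
    (hN : ∀ n, N ≤ n → e * liouvilleSum n ≤ C * √n) : RiemannHypothesis :=
  FA.OneSided.riemannHypothesis_of_zero_free fun s hs hs1 h0 =>
    zero_free he hN hs (FA.OneSided.zeta₁_eq_zero_of_zeta (fun h => by simp [h] at hs1) h0)

/-- **The tail has a nonnegative series right of the line.** -/
theorem isNonnegSeries (hN1 : 1 ≤ N) (he : e ≠ 0)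
    (hN : ∀ n, N ≤ n → e * liouvilleSum n ≤ C * √n) :
    IsNonnegSeries (tail C e N) (cont C e N) := by
  obtain ⟨c, hc⟩ : ∃ c : ℕ → ℂ, c = coeff C e := ⟨_, rfl⟩
  obtain ⟨b, hb⟩ : ∃ b : ℕ → ℂ, b = FA.Signs.removed c (Finset.range N) := ⟨_, rfl⟩
  have ht0 : ∀ n, 0 ≤ tail C e N n := fun n => by
    rw [tail]
    split_ifs with h
    · exact le_rfl
    · linarith [hN n (not_lt.1 h)]
  have hbt : ∀ n, b n = (tail C e N n : ℂ) := fun n => by
    rw [hb, FA.Signs.removed, tail, hc, coeff]
    simp only [Finset.mem_range]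
    split_ifs <;> simp
  have hb0 : (0 : ℕ → ℂ) ≤ b := fun n => by
    rw [Pi.zero_apply, hbt]
    exact Complex.zero_le_real.2 (ht0 n)
  refine ⟨ht0, fun z hz => ?_⟩
  have hser : ∀ w : ℂ, 2 < w.re → LSeriesHasSum b w (cont C e N (w - 1)) := by
    intro w hw
    have hre : 1 < (w - 1).re := by simp; linarith
    have hre2 : 1 < (w - 1 / 2).re := by simp; linarith
    have h1 := FA.OneSided.hasSum_summatory (fun n _ => norm_summatory_le n) zero_le_one
      le_rfl hre (a := liouvilleC) (FA.OneSided.summable_liouville hre)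
    have hval : LSeries liouvilleC (w - 1) = invZeta (w - 1) * riemannZeta (2 * (w - 1)) :=
      FA.OneSided.lSeries_liouville hre
    rw [hval, sub_add_cancel] at h1
    have hζ : HasSum (fun n : ℕ => LSeries.term 1 (w - 1 / 2) n) (riemannZeta (w - 1 / 2)) := by
      rw [← LSeries_one_eq_riemannZeta hre2]
      exact (LSeriesSummable_one_iff.2 hre2).LSeriesHasSum
    have hcsum : LSeriesHasSum c w (C * riemannZeta (w - 1 / 2) -
        e * ((invZeta (w - 1) * riemannZeta (2 * (w - 1)) + defect liouvilleC (w - 1)) /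
          (w - 1))) := by
      refine ((hζ.mul_left (C : ℂ)).sub (h1.mul_left (e : ℂ))).congr_fun fun n => ?_
      rcases Nat.eq_zero_or_pos n with rfl | hn
      · simp [FA.OneSided.summatory_zero]
      have hn0 : (n : ℂ) ≠ 0 := Nat.cast_ne_zero.2 hn.ne'
      have hM : summatory liouvilleC n = ((liouvilleSum n : ℝ) : ℂ) := by
        simp [summatory, liouvilleSum, liouvilleC]
      rw [LSeries.term_of_ne_zero hn.ne', LSeries.term_of_ne_zero hn.ne', Pi.one_apply, hc, coeff,
        hM]
      push_cast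
      rw [Real.sqrt_eq_rpow, ofReal_cpow (Nat.cast_nonneg n), ofReal_natCast, cpow_neg,
        cpow_sub _ _ hn0, one_div_div, show ((1 / 2 : ℝ) : ℂ) = 1 / 2 by push_cast; ring]
      ring
    have h2 := FA.Signs.hasSum_removed (Finset.range N) hcsum.LSeriesSummable
    rw [hcsum.LSeries_eq, ← hb] at h2
    rw [cont, headSum, show w - 1 + 1 / 2 = w - 1 / 2 by ring, sub_add_cancel, ← hc]
    exact h2
  have hd : DifferentiableOn ℂ (fun w => cont C e N (w - 1)) {w | (3 / 2 : ℝ) < w.re} := by
    intro w hw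
    have hw' : (1 / 2 : ℝ) < (w - 1).re := by
      have : (3 / 2 : ℝ) < w.re := hw
      simp
      linarith
    have h0 : w - 1 ≠ 0 := fun h => by rw [h] at hw'; norm_num at hw'
    have hh : w - 1 ≠ 1 / 2 := fun h => by rw [h] at hw'; norm_num at hw'
    have hne : w - 1 + 1 / 2 ≠ 1 := fun h => hh (by linear_combination h)
    have hk : DifferentiableAt ℂ (cont C e N) (w - 1) := by
      unfold cont
      exact ((((differentiableAt_riemannZeta hne).comp (w - 1)
        (differentiableAt_id.add_const (1 / 2))).const_mul _).fun_sub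
          (((((FA.VonKoch.differentiableAt_invZeta (zero_free he hN hw')).mul
            (differentiableAt_double hh)).add
              (differentiableAt_defect (by linarith))).div differentiableAt_id h0).const_mul
                _)).sub (differentiableAt_headSum _)
    exact (hk.comp w (differentiableAt_id.sub_const 1)).differentiableWithinAt
  obtain ⟨hs, hv⟩ := FA.OneSided.lSeriesSummable_of_nonneg hb0 (Den := fun _ => 1)
    (fun w hw => (hser w hw).LSeriesSummable)
    (fun w hw => by rw [one_mul, (hser w hw).LSeries_eq])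
    hd (differentiableOn_const 1) (fun _ _ => one_ne_zero) (w := z + 1) (by simp; linarith)
  rw [one_mul, add_sub_cancel_right] at hv
  rw [← hv]
  refine hs.LSeriesHasSum.congr_fun fun n => ?_
  rcases Nat.eq_zero_or_pos n with rfl | hn
  · simp [tail, show 0 < N by omega]
  rw [LSeries.term_of_ne_zero hn.ne', hbt, div_eq_mul_inv, ← cpow_neg,
    cpow_def_of_ne_zero (Nat.cast_ne_zero.2 hn.ne'), natCast_log, mul_comm (log _)]

/-- The parts without `1 / ζ`. -/
theorem tendsto_rest (w : ℝ) :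
    Tendsto (fun δ : ℝ => (δ : ℂ) * (C * riemannZeta (onLine w + δ + 1 / 2) -
      e * (defect liouvilleC (onLine w + δ) / (onLine w + δ)) - headSum C e N (onLine w + δ)))
      (𝓝[>] 0) (𝓝 (if w = 0 then (C : ℂ) else 0)) := by
  have hz : Tendsto (fun δ : ℝ => (δ : ℂ) * riemannZeta (onLine w + δ + 1 / 2)) (𝓝[>] 0)
      (𝓝 (if w = 0 then 1 else 0)) := by
    split_ifs with hw
    · subst hw
      have h1 : Tendsto (fun δ : ℝ => (1 : ℂ) + δ) (𝓝[>] 0) (𝓝[≠] (1 : ℂ)) :=
        tendsto_nhdsWithin_of_tendsto_nhds_of_eventually_within _ (tendsto_shift 1)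
          (eventually_mem_nhdsWithin.mono fun δ (hδ : (0 : ℝ) < δ) => by simp [hδ.ne'])
      refine (riemannZeta_residue_one.comp h1).congr fun δ => ?_
      rw [Function.comp_apply, onLine_zero, add_sub_cancel_left,
        show (1 : ℂ) / 2 + δ + 1 / 2 = 1 + δ by ring]
    · refine tendsto_mul_of_continuousAt (f := fun z => riemannZeta (z + 1 / 2))
        ((differentiableAt_riemannZeta fun h1 => ?_).comp _
          (differentiableAt_id.add_const (1 / 2))).continuousAt
      exact hw (by simpa [onLine_im] using congrArg Complex.im h1)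
  have hD := tendsto_mul_of_continuousAt (f := fun z => defect liouvilleC z / z) (z₀ := onLine w)
    ((differentiableAt_defect (z := onLine w) (by rw [onLine_re]; norm_num)).div
      differentiableAt_id
      (onLine_ne_zero w)).continuousAt
  have hP := tendsto_mul_of_continuousAt (f := headSum C e N) (z₀ := onLine w)
    (differentiableAt_headSum (C := C) (e := e) (N := N) _).continuousAt
  have hall := ((hz.const_mul (C : ℂ)).sub (hD.const_mul (e : ℂ))).sub hP
  rw [mul_zero, sub_zero, sub_zero, mul_ite, mul_one, mul_zero] at hall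
  exact hall.congr fun δ => by ring

/-- Splitting off the part with `1 / ζ`. -/
theorem cont_eq (z : ℂ) (δ : ℂ) : δ * cont C e N z =
    δ * (C * riemannZeta (z + 1 / 2) - e * (defect liouvilleC z / z) - headSum C e N z) -
      e * (δ * (invZeta z * riemannZeta (2 * z)) / z) := by
  rw [cont]
  ring

/-- **At `1/2`**: the bias `1 / ζ (1/2)`. -/
theorem tendsto_cont_zero :
    Tendsto (fun δ : ℝ => (δ : ℂ) * cont C e N (onLine 0 + δ)) (𝓝[>] 0)
      (𝓝 ((C : ℂ) - e * (riemannZeta (1 / 2))⁻¹)) := by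
  have h2 : Tendsto (fun δ : ℝ => (2 * (δ : ℂ)) * riemannZeta (2 * (onLine 0 + δ))) (𝓝[>] 0)
      (𝓝 1) := by
    have h1 : Tendsto (fun δ : ℝ => (1 : ℂ) + 2 * δ) (𝓝[>] 0) (𝓝[≠] (1 : ℂ)) := by
      refine tendsto_nhdsWithin_of_tendsto_nhds_of_eventually_within _ ?_
        (eventually_mem_nhdsWithin.mono fun δ (hδ : (0 : ℝ) < δ) => by simp [hδ.ne'])
      have := ((by fun_prop : Continuous fun δ : ℝ => (1 : ℂ) + 2 * δ)).tendsto 0
      simpa using this.mono_left (nhdsWithin_le_nhds (s := Set.Ioi (0 : ℝ)))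
    refine (riemannZeta_residue_one.comp h1).congr fun δ => ?_
    rw [Function.comp_apply, onLine_zero, add_sub_cancel_left,
      show 2 * ((1 : ℂ) / 2 + δ) = 1 + 2 * δ by ring]
  have hi : Tendsto (fun δ : ℝ => invZeta (onLine 0 + δ)) (𝓝[>] 0) (𝓝 (invZeta (onLine 0))) :=
    (FA.VonKoch.differentiableAt_invZeta fun h => zeta_half_ne_zero (by
      rw [riemannZeta_eq_inv_sub_mul (onLine_ne_one 0), h, mul_zero])).continuousAt.tendsto.comp
        (tendsto_shift _)
  have hall := (tendsto_rest (C := C) (e := e) (N := N) 0).sub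
    ((((h2.mul hi).div_const 2).div (tendsto_shift (onLine 0)) (onLine_ne_zero 0)).const_mul
      (e : ℂ))
  rw [if_pos rfl, one_mul, invZeta_eq (onLine_ne_one 0)] at hall
  rw [show (riemannZeta (1 / 2))⁻¹ = (riemannZeta (onLine 0))⁻¹ / 2 / onLine 0 by
    rw [onLine_zero]; field_simp]
  refine hall.congr fun δ => ?_
  rw [cont_eq]
  simp only [Pi.div_apply]
  ring

/-- Away from `1/2` with a limit `X` of `δ / ζ`. -/
theorem tendsto_cont {w : ℝ} (hw : w ≠ 0) {X : ℂ}
    (h : Tendsto (fun δ : ℝ => (δ : ℂ) * invZeta (onLine w + δ)) (𝓝[>] 0) (𝓝 X)) :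
    Tendsto (fun δ : ℝ => (δ : ℂ) * cont C e N (onLine w + δ)) (𝓝[>] 0)
      (𝓝 (-(e * (X * riemannZeta (2 * onLine w) / onLine w)))) := by
  have hne : onLine w ≠ 1 / 2 := fun h => hw (by simpa [onLine_im] using congrArg Complex.im h)
  have h2 : Tendsto (fun δ : ℝ => riemannZeta (2 * (onLine w + δ))) (𝓝[>] 0)
      (𝓝 (riemannZeta (2 * onLine w))) :=
    (differentiableAt_double hne).continuousAt.tendsto.comp (tendsto_shift _)
  have hall := (tendsto_rest (C := C) (e := e) (N := N) w).sub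
    (((h.mul h2).div (tendsto_shift (onLine w)) (onLine_ne_zero w)).const_mul (e : ℂ))
  rw [if_neg hw, zero_sub] at hall
  refine hall.congr fun δ => ?_
  rw [cont_eq]
  simp only [Pi.div_apply]
  ring

theorem double_ne_zero (w : ℝ) : riemannZeta (2 * onLine w) ≠ 0 :=
  riemannZeta_ne_zero_of_one_le_re (by simp [onLine_re])

/-- **The zeros on the line are simple.** -/
theorem deriv_ne_zero (hN1 : 1 ≤ N) (he : e ≠ 0)
    (hN : ∀ n, N ≤ n → e * liouvilleSum n ≤ C * √n) {w : ℝ} (hw : w ≠ 0)
    (hz : riemannZeta (onLine w) = 0) : deriv riemannZeta (onLine w) ≠ 0 := by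
  intro hd
  obtain ⟨Q, hQ⟩ : ∃ Q : ℝ → ℂ, Q = fun δ : ℝ => (δ : ℂ)⁻¹ * riemannZeta (onLine w + δ) := ⟨_, rfl⟩
  have hQ0 : Tendsto Q (𝓝[>] 0) (𝓝 0) := hQ ▸ hd ▸ tendsto_slope_zeta hz
  have hne : onLine w ≠ 1 / 2 := fun h => hw (by simpa [onLine_im] using congrArg Complex.im h)
  have h2 : Tendsto (fun δ : ℝ => riemannZeta (2 * (onLine w + δ))) (𝓝[>] 0)
      (𝓝 (riemannZeta (2 * onLine w))) :=
    (differentiableAt_double hne).continuousAt.tendsto.comp (tendsto_shift _)
  have hlim := ((tendsto_rest (C := C) (e := e) (N := N) w).mul hQ0).sub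
    ((h2.div (tendsto_shift (onLine w)) (onLine_ne_zero w)).const_mul (e : ℂ))
  rw [mul_zero, zero_sub] at hlim
  have h0 := (isNonnegSeries hN1 he hN).tendsto_mul_zero (w := w)
    (tendsto_cont_zero (C := C) (e := e) (N := N)) hQ0
  have heq := tendsto_nhds_unique h0 (hlim.congr' ?_)
  · exact neg_ne_zero.2 (mul_ne_zero (ofReal_ne_zero.2 he)
      (div_ne_zero (double_ne_zero w) (onLine_ne_zero w))) heq.symm
  filter_upwards [eventually_mem_nhdsWithin, eventually_invZeta (onLine_ne_one w)] with δ hδ hi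
  have hδ0 : (0 : ℝ) < δ := hδ
  have hz' : riemannZeta (onLine w + δ) ≠ 0 := fun h =>
    zero_free he hN (z := onLine w + δ) (by simp [onLine_re]; linarith)
      (FA.OneSided.zeta₁_eq_zero_of_zeta (fun h => hw (by
        simpa [onLine_im] using congrArg Complex.im h)) h)
  have hδc : (δ : ℂ) ≠ 0 := ofReal_ne_zero.2 hδ0.ne'
  have e1 : (δ : ℂ) * (riemannZeta (onLine w + δ))⁻¹ * Q δ = 1 := by
    rw [hQ]
    field_simp
  rw [cont_eq, hi, sub_mul]
  simp only [Pi.div_apply]
  congr 1
  calc (e : ℂ) * (riemannZeta (2 * (onLine w + δ)) / (onLine w + δ))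
      = (e : ℂ) * (((δ : ℂ) * (riemannZeta (onLine w + δ))⁻¹ * Q δ) *
          riemannZeta (2 * (onLine w + δ)) / (onLine w + δ)) := by rw [e1, one_mul]
    _ = _ := by ring

/-- At a simple zero. -/
theorem tendsto_cont_resid (hN1 : 1 ≤ N) (he : e ≠ 0)
    (hN : ∀ n, N ≤ n → e * liouvilleSum n ≤ C * √n) {w : ℝ} (hw : w ≠ 0)
    (hz : riemannZeta (onLine w) = 0) :
    Tendsto (fun δ : ℝ => (δ : ℂ) * cont C e N (onLine w + δ)) (𝓝[>] 0)
      (𝓝 (-(e * resid w))) := by
  have := tendsto_cont (C := C) (e := e) (N := N) hw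
    (tendsto_invZeta_simple hz (deriv_ne_zero hN1 he hN hw hz))
  rw [resid, FA.MertensOmega.resid]
  convert this using 3
  rw [mul_inv]
  ring

/-- Off the zeros. -/
theorem tendsto_cont_regular {w : ℝ} (hw : w ≠ 0) (hz : riemannZeta (onLine w) ≠ 0) :
    Tendsto (fun δ : ℝ => (δ : ℂ) * cont C e N (onLine w + δ)) (𝓝[>] 0) (𝓝 0) := by
  simpa using tendsto_cont (C := C) (e := e) (N := N) hw (tendsto_invZeta_regular hz)

/-- **The bound at a zero.** -/
theorem resid_le (hN1 : 1 ≤ N) (he : e ≠ 0)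
    (hN : ∀ n, N ≤ n → e * liouvilleSum n ≤ C * √n) {w : ℝ} (hw : w ≠ 0)
    (hz : riemannZeta (onLine w) = 0) :
    |e| * ‖resid w‖ ≤ C - e * (riemannZeta (1 / 2))⁻¹.re := by
  have h := (isNonnegSeries hN1 he hN).norm_limit_le tendsto_cont_zero
    (tendsto_cont_resid hN1 he hN hw hz)
  rwa [norm_neg, norm_mul, norm_real, Real.norm_eq_abs, sub_re, ofReal_re, re_ofReal_mul] at h

end FA.LiouvilleOmega

end
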